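import Mathlib

/-!
# Weighted Eisenstein sums

Seat `helper44` (project P-ES, block ES-A-EIS).  Mathlib only.

For a bounded weight function `w : (Fin 2 → ℤ) → ℂ` and `k ≥ 3` we study
`wEis w k z = ∑' v, w v * (v 0 * z + v 1) ^ (-k)`:

* `wEis_mdifferentiable` : it is holomorphic on `ℍ`;
* `wEis_slash` : `wEis w k ∣[k] A = wEis (fun v => w (v ᵥ* A⁻¹)) k` for `A : SL(2, ℤ)`;
* `isBoundedAtImInfty_wEis` : it is bounded at `i∞`;
* `norm_wEis_sub_le` : explicit decay of the part with `v 0 ≠ 0` on the strip `|re z| ≤ 1`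
  (for `k ≥ 4`).
-/

set_option autoImplicit false

noncomputable section

open UpperHalfPlane EisensteinSeries ModularForm Matrix CongruenceSubgroup Filter Topology
open scoped MatrixGroups Manifold

namespace Fermat.Agent.H44

/-- the weighted Eisenstein sum `∑' v, w v * (v 0 * z + v 1) ^ (-k)` -/
def wEis (w : (Fin 2 → ℤ) → ℂ) (k : ℤ) (z : ℍ) : ℂ := ∑' v : Fin 2 → ℤ, w v * eisSummand k v z

variable {w : (Fin 2 → ℤ) → ℂ} {k : ℤ}

theorem norm_wEis_summand_le (hw : ∀ v, ‖w v‖ ≤ 1) (v : Fin 2 → ℤ) (z : ℍ) :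
    ‖w v * eisSummand k v z‖ ≤ ‖eisSummand k v z‖ := by
  rw [norm_mul]
  exact mul_le_of_le_one_left (norm_nonneg _) (hw v)

theorem summable_norm_wEis (hw : ∀ v, ‖w v‖ ≤ 1) (hk : 3 ≤ k) (z : ℍ) :
    Summable fun v : Fin 2 → ℤ => ‖w v * eisSummand k v z‖ :=
  (summable_norm_eisSummand hk z).of_nonneg_of_le (fun _ => norm_nonneg _)
    (fun v => norm_wEis_summand_le hw v z)

theorem summable_wEis (hw : ∀ v, ‖w v‖ ≤ 1) (hk : 3 ≤ k) (z : ℍ) :
    Summable fun v : Fin 2 → ℤ => w v * eisSummand k v z :=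
  (summable_norm_wEis hw hk z).of_norm

theorem norm_wEis_le (hw : ∀ v, ‖w v‖ ≤ 1) (hk : 3 ≤ k) (z : ℍ) :
    ‖wEis w k z‖ ≤ ∑' v : Fin 2 → ℤ, ‖eisSummand k v z‖ := by
  unfold wEis
  refine (norm_tsum_le_tsum_norm (summable_norm_wEis hw hk z)).trans ?_
  exact (summable_norm_wEis hw hk z).tsum_le_tsum (fun v => norm_wEis_summand_le hw v z)
    (summable_norm_eisSummand hk z)

/-! ### holomorphy -/

theorem wEis_tendstoLocallyUniformly (hw : ∀ v, ‖w v‖ ≤ 1) (hk : 3 ≤ k) :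
    TendstoLocallyUniformly
      (fun (s : Finset (Fin 2 → ℤ)) => (fun z : ℍ => ∑ x ∈ s, w x * eisSummand k x z))
      (wEis w k) Filter.atTop := by
  have hk' : (2 : ℝ) < k := by norm_cast
  have p_sum : Summable fun x : Fin 2 → ℤ ↦ ‖x‖ ^ (-k) :=
    mod_cast (summable_one_div_norm_rpow hk')
  rw [tendstoLocallyUniformly_iff_forall_isCompact]
  intro K hK
  obtain ⟨A, B, hB, HABK⟩ := subset_verticalStrip_of_isCompact hK
  refine (tendstoUniformlyOn_tsum (hu := p_sum.mul_left <| r ⟨⟨A, B⟩, hB⟩ ^ (-k : ℝ))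
    (fun p z hz ↦ ?_)).mono HABK
  refine (norm_wEis_summand_le hw p z).trans ?_
  simpa only [eisSummand, one_div, ← _root_.zpow_neg, norm_zpow, ← Real.rpow_intCast,
    Int.cast_neg] using summand_bound_of_mem_verticalStrip (by positivity) p hB hz

theorem wEis_tendstoLocallyUniformlyOn (hw : ∀ v, ‖w v‖ ≤ 1) (hk : 3 ≤ k) :
    TendstoLocallyUniformlyOn
      (fun (s : Finset (Fin 2 → ℤ)) => ↑ₕ(fun z : ℍ => ∑ x ∈ s, w x * eisSummand k x z))
      (↑ₕ(wEis w k)) Filter.atTop {z : ℂ | 0 < z.im} := by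
  rw [← upperHalfPlaneSet, ← range_coe, ← Set.image_univ]
  apply TendstoLocallyUniformlyOn.comp (s := ⊤) _ _ _ (OpenPartialHomeomorph.continuousOn_symm _)
  · simp only [Set.top_eq_univ, tendstoLocallyUniformlyOn_univ]
    exact wEis_tendstoLocallyUniformly hw hk
  · simp only [IsOpenEmbedding.toOpenPartialHomeomorph_target, Set.top_eq_univ,
      Set.mapsTo_range_iff, Set.mem_univ, forall_const]

theorem wEis_summand_extension_differentiableOn (w : (Fin 2 → ℤ) → ℂ) (k : ℤ) (a : Fin 2 → ℤ) :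
    DifferentiableOn ℂ (↑ₕ(fun z : ℍ => w a * eisSummand k a z)) {z : ℂ | 0 < z.im} := by
  have h := (eisSummand_extension_differentiableOn k a).const_mul (w a)
  refine h.congr fun z _ => ?_
  simp [Function.comp]

/-- the weighted Eisenstein sum is holomorphic -/
theorem wEis_mdifferentiable (hw : ∀ v, ‖w v‖ ≤ 1) (hk : 3 ≤ k) : MDiff (wEis w k) := by
  intro τ
  suffices DifferentiableAt ℂ (↑ₕ(wEis w k)) τ.1 by
    convert!
      MDifferentiableAt.comp τ (DifferentiableAt.mdifferentiableAt this) τ.mdifferentiable_coe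
    exact funext fun z ↦ (comp_ofComplex (wEis w k) z).symm
  refine DifferentiableOn.differentiableAt ?_ (isOpen_upperHalfPlaneSet.mem_nhds τ.2)
  refine (wEis_tendstoLocallyUniformlyOn hw hk).differentiableOn
    (Eventually.of_forall fun s ↦ ?_) isOpen_upperHalfPlaneSet
  have h : DifferentiableOn ℂ (fun z : ℂ => ∑ x ∈ s, (↑ₕ(fun z : ℍ => w x * eisSummand k x z)) z)
      {z : ℂ | 0 < z.im} :=
    DifferentiableOn.fun_sum fun x _ ↦ wEis_summand_extension_differentiableOn w k x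
  refine h.congr fun z _ => ?_
  simp [Function.comp]

/-! ### the slash action -/

/-- right multiplication by `A : SL(2, ℤ)` as a permutation of `Fin 2 → ℤ` -/
def vecMulEquiv (A : SL(2, ℤ)) : (Fin 2 → ℤ) ≃ (Fin 2 → ℤ) where
  toFun v := v ᵥ* (A : Matrix (Fin 2) (Fin 2) ℤ)
  invFun v := v ᵥ* ((A⁻¹ : SL(2, ℤ)) : Matrix (Fin 2) (Fin 2) ℤ)
  left_inv v := by
    show (v ᵥ* (A : Matrix (Fin 2) (Fin 2) ℤ)) ᵥ*
      ((A⁻¹ : SL(2, ℤ)) : Matrix (Fin 2) (Fin 2) ℤ) = v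
    rw [vecMul_vecMul, ← Matrix.SpecialLinearGroup.coe_mul, mul_inv_cancel,
      Matrix.SpecialLinearGroup.coe_one, vecMul_one]
  right_inv v := by
    show (v ᵥ* ((A⁻¹ : SL(2, ℤ)) : Matrix (Fin 2) (Fin 2) ℤ)) ᵥ*
      (A : Matrix (Fin 2) (Fin 2) ℤ) = v
    rw [vecMul_vecMul, ← Matrix.SpecialLinearGroup.coe_mul, inv_mul_cancel,
      Matrix.SpecialLinearGroup.coe_one, vecMul_one]

@[simp] theorem vecMulEquiv_apply (A : SL(2, ℤ)) (v : Fin 2 → ℤ) :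
    vecMulEquiv A v = v ᵥ* (A : Matrix (Fin 2) (Fin 2) ℤ) := rfl

theorem vecMul_inv_vecMul (A : SL(2, ℤ)) (v : Fin 2 → ℤ) :
    (v ᵥ* (A : Matrix (Fin 2) (Fin 2) ℤ)) ᵥ* ((A⁻¹ : SL(2, ℤ)) : Matrix (Fin 2) (Fin 2) ℤ) = v :=
  (vecMulEquiv A).left_inv v

theorem vecMul_vecMul_inv (A : SL(2, ℤ)) (v : Fin 2 → ℤ) :
    (v ᵥ* ((A⁻¹ : SL(2, ℤ)) : Matrix (Fin 2) (Fin 2) ℤ)) ᵥ* (A : Matrix (Fin 2) (Fin 2) ℤ) = v :=
  (vecMulEquiv A).right_inv v

theorem wEis_smul (w : (Fin 2 → ℤ) → ℂ) (k : ℤ) (A : SL(2, ℤ)) (z : ℍ) :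
    wEis w k (A • z) = denom A z ^ k *
      wEis (fun v => w (v ᵥ* ((A⁻¹ : SL(2, ℤ)) : Matrix (Fin 2) (Fin 2) ℤ))) k z := by
  unfold wEis
  simp_rw [eisSummand_SL2_apply]
  rw [← tsum_mul_left,
    ← (vecMulEquiv A).tsum_eq
      (fun v' => denom A z ^ k *
        (w (v' ᵥ* ((A⁻¹ : SL(2, ℤ)) : Matrix (Fin 2) (Fin 2) ℤ)) * eisSummand k v' z))]
  refine tsum_congr fun v => ?_
  rw [vecMulEquiv_apply, vecMul_inv_vecMul]
  ring

/-- the slash action on weighted Eisenstein sums is the translation action on the weights -/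
theorem wEis_slash (w : (Fin 2 → ℤ) → ℂ) (k : ℤ) (A : SL(2, ℤ)) :
    wEis w k ∣[k] A =
      wEis (fun v => w (v ᵥ* ((A⁻¹ : SL(2, ℤ)) : Matrix (Fin 2) (Fin 2) ℤ))) k := by
  ext z
  rw [SL_slash_apply, wEis_smul, mul_comm, ← mul_assoc, ← zpow_add₀ (denom_ne_zero A z)]
  simp

/-! ### boundedness at `i∞` -/

/-- the majorant `∑' v, ‖(v 0 * z + v 1) ^ (-k)‖` -/
def eisMajorant (k : ℤ) (z : ℍ) : ℝ := ∑' v : Fin 2 → ℤ, ‖eisSummand k v z‖

theorem eisMajorant_T_zpow_smul (k : ℤ) (n : ℤ) (z : ℍ) :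
    eisMajorant k (ModularGroup.T ^ n • z) = eisMajorant k z := by
  unfold eisMajorant
  simp_rw [eisSummand_SL2_apply]
  have hden : denom ((ModularGroup.T ^ n : SL(2, ℤ)) : GL (Fin 2) ℝ) z = 1 := by
    rw [ModularGroup.denom_apply, ModularGroup.coe_T_zpow]
    simp
  rw [hden, _root_.one_zpow]
  simp_rw [one_mul]
  exact (vecMulEquiv (ModularGroup.T ^ n)).tsum_eq (fun v => ‖eisSummand k v z‖)

theorem eisMajorant_le_of_mem_verticalStrip (hk : 3 ≤ k) {A B : ℝ} (hB : 0 < B) {z : ℍ}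
    (hz : z ∈ verticalStrip A B) :
    eisMajorant k z ≤ ∑' x : Fin 2 → ℤ, r ⟨⟨A, B⟩, hB⟩ ^ (-k) * ‖x‖ ^ (-k) := by
  have hk' : (2 : ℝ) < k := by norm_cast
  unfold eisMajorant
  apply (summable_norm_eisSummand hk _).tsum_le_tsum _
  · exact_mod_cast (summable_one_div_norm_rpow hk').mul_left <| r ⟨⟨A, B⟩, hB⟩ ^ (-k)
  · intro x
    simp_rw [eisSummand, norm_zpow]
    exact_mod_cast summand_bound_of_mem_verticalStrip (lt_trans two_pos hk').le x hB hz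

theorem eisMajorant_le (hk : 3 ≤ k) {z : ℍ} (hz : 2 ≤ z.im) :
    eisMajorant k z ≤ ∑' x : Fin 2 → ℤ, r ⟨⟨1, 2⟩, Nat.ofNat_pos⟩ ^ (-k) * ‖x‖ ^ (-k) := by
  obtain ⟨n, hn⟩ := ModularGroup_T_zpow_mem_verticalStrip z (N := 1) one_pos
  rw [← eisMajorant_T_zpow_smul k ((1 : ℕ) * n) z]
  refine eisMajorant_le_of_mem_verticalStrip hk _ ?_
  have h1 : ModularGroup.T ^ (((1 : ℕ) : ℤ) * n) • z ∈ verticalStrip ((1 : ℕ) : ℝ) 2 :=
    verticalStrip_anti_right _ hz hn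
  simpa using h1

/-- weighted Eisenstein sums with weights bounded by `1` are bounded at `i∞` -/
theorem isBoundedAtImInfty_wEis (hw : ∀ v, ‖w v‖ ≤ 1) (hk : 3 ≤ k) :
    IsBoundedAtImInfty (wEis w k) := by
  rw [UpperHalfPlane.isBoundedAtImInfty_iff]
  exact ⟨_, 2, fun z hz => (norm_wEis_le hw hk z).trans (eisMajorant_le hk hz)⟩

/-- all `SL(2, ℤ)`-translates of a weighted Eisenstein sum are bounded at `i∞` -/
theorem isBoundedAtImInfty_wEis_slash (hw : ∀ v, ‖w v‖ ≤ 1) (hk : 3 ≤ k) (A : SL(2, ℤ)) :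
    IsBoundedAtImInfty (wEis w k ∣[k] A) := by
  rw [wEis_slash]
  exact isBoundedAtImInfty_wEis (fun v => hw _) hk

/-! ### behaviour at `i∞` -/

theorem im_le_norm_of_ne_zero (v : Fin 2 → ℤ) (hv : v 0 ≠ 0) (z : ℍ) :
    z.im ≤ ‖(v 0 : ℂ) * (z : ℂ) + v 1‖ := by
  have h1 : |((v 0 : ℂ) * (z : ℂ) + v 1).im| ≤ ‖(v 0 : ℂ) * (z : ℂ) + v 1‖ :=
    Complex.abs_im_le_norm _
  have h2 : ((v 0 : ℂ) * (z : ℂ) + v 1).im = (v 0 : ℝ) * z.im := by
    simp
  rw [h2, abs_mul, abs_of_pos z.im_pos] at h1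
  have h3 : (1 : ℝ) ≤ |(v 0 : ℝ)| := by
    have : (1 : ℤ) ≤ |v 0| := Int.one_le_abs hv
    exact_mod_cast this
  calc z.im = 1 * z.im := (one_mul _).symm
    _ ≤ |(v 0 : ℝ)| * z.im := by gcongr
    _ ≤ _ := h1

theorem norm_eisSummand_le_of_ne_zero (k : ℤ) (v : Fin 2 → ℤ) (hv : v 0 ≠ 0) (z : ℍ) :
    ‖eisSummand k v z‖ ≤ ‖eisSummand (k - 1) v z‖ / z.im := by
  have h0 := im_le_norm_of_ne_zero v hv z
  have hpos : 0 < ‖(v 0 : ℂ) * (z : ℂ) + v 1‖ := lt_of_lt_of_le z.im_pos h0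
  simp only [eisSummand, norm_zpow]
  have h1 : ‖(v 0 : ℂ) * (z : ℂ) + v 1‖ ^ (-k) =
      ‖(v 0 : ℂ) * (z : ℂ) + v 1‖ ^ (-(k - 1)) * ‖(v 0 : ℂ) * (z : ℂ) + v 1‖⁻¹ := by
    rw [← _root_.zpow_neg_one, ← zpow_add₀ hpos.ne']
    congr 1
    ring
  rw [h1, div_eq_mul_inv]
  gcongr

/-- decay of the part of a weighted Eisenstein sum with `v 0 ≠ 0` -/
theorem norm_wEis_le_of_support (hw : ∀ v, ‖w v‖ ≤ 1) (hk : 4 ≤ k)
    (hw0 : ∀ v : Fin 2 → ℤ, v 0 = 0 → w v = 0) (z : ℍ) :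
    ‖wEis w k z‖ ≤ eisMajorant (k - 1) z / z.im := by
  have hk3 : 3 ≤ k - 1 := by omega
  unfold wEis eisMajorant
  rw [← tsum_div_const]
  refine (norm_tsum_le_tsum_norm (summable_norm_wEis hw (by omega) z)).trans ?_
  refine (summable_norm_wEis hw (by omega) z).tsum_le_tsum (fun v => ?_)
    ((summable_norm_eisSummand hk3 z).div_const _)
  by_cases hv : v 0 = 0
  · rw [hw0 v hv, zero_mul, norm_zero]
    exact div_nonneg (norm_nonneg _) z.im_pos.le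
  · exact (norm_wEis_summand_le hw v z).trans (norm_eisSummand_le_of_ne_zero k v hv z)

theorem wEis_add (w₁ w₂ : (Fin 2 → ℤ) → ℂ) (hw₁ : ∀ v, ‖w₁ v‖ ≤ 1) (hw₂ : ∀ v, ‖w₂ v‖ ≤ 1)
    (hk : 3 ≤ k) (z : ℍ) :
    wEis (fun v => w₁ v + w₂ v) k z = wEis w₁ k z + wEis w₂ k z := by
  unfold wEis
  rw [← (summable_wEis hw₁ hk z).tsum_add (summable_wEis hw₂ hk z)]
  refine tsum_congr fun v => ?_
  ring

/-- a weighted Eisenstein sum whose weights vanish on `{v | v 0 = 0}` outside `(0, 1)`, `(0, -1)`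
tends to `w (0, 1) + w (0, -1)` at `i∞` (even weight `k ≥ 4`). -/
theorem norm_wEis_sub_le (hw : ∀ v, ‖w v‖ ≤ 1) (hk : 4 ≤ k) (hk2 : Even k)
    (hw0 : ∀ v : Fin 2 → ℤ, v 0 = 0 → v ≠ ![0, 1] → v ≠ ![0, -1] → w v = 0) (z : ℍ) :
    ‖wEis w k z - (w ![0, 1] + w ![0, -1])‖ ≤ eisMajorant (k - 1) z / z.im := by
  classical
  set w₀ : (Fin 2 → ℤ) → ℂ := fun v => if v 0 = 0 then w v else 0 with hw₀
  set w₁ : (Fin 2 → ℤ) → ℂ := fun v => if v 0 = 0 then 0 else w v with hw₁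
  have hb₀ : ∀ v, ‖w₀ v‖ ≤ 1 := fun v => by
    simp only [hw₀]
    split_ifs
    · exact hw v
    · simp
  have hb₁ : ∀ v, ‖w₁ v‖ ≤ 1 := fun v => by
    simp only [hw₁]
    split_ifs
    · simp
    · exact hw v
  have hsplit : w = fun v => w₀ v + w₁ v := by
    funext v
    simp only [hw₀, hw₁]
    split_ifs <;> simp
  have h01 : (![0, 1] : Fin 2 → ℤ) ≠ ![0, -1] := by
    intro h
    have := congrFun h 1
    simp at this
  have hfin : wEis w₀ k z = w ![0, 1] + w ![0, -1] := by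
    unfold wEis
    rw [tsum_eq_sum (s := {![0, 1], ![0, -1]})]
    · rw [Finset.sum_pair h01]
      simp only [hw₀, eisSummand]
      have e1 : ((-1 : ℂ)) ^ (-k) = 1 := by
        rw [_root_.zpow_neg, Even.neg_one_zpow hk2, inv_one]
      simp [e1]
    · intro v hv
      simp only [Finset.mem_insert, Finset.mem_singleton, not_or] at hv
      simp only [hw₀]
      split_ifs with h
      · rw [hw0 v h hv.1 hv.2, zero_mul]
      · rw [zero_mul]
  have hk3 : 3 ≤ k := by omega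
  have key : wEis w k z = wEis w₀ k z + wEis w₁ k z := by
    conv_lhs => rw [hsplit]
    exact wEis_add w₀ w₁ hb₀ hb₁ hk3 z
  rw [key, hfin, add_sub_cancel_left]
  exact norm_wEis_le_of_support hb₁ hk (fun v hv => by simp [hw₁, hv]) z

end Fermat.Agent.H44
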