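import Mathlib
import Fermat.Agent.H44.EsA.WeightedEis

/-!
# Eisenstein series with a character of `Γ₀(N)`

Seat `helper44` (project P-ES, block ES-A-EIS).  Mathlib only.

Let `χ : Γ₀(N) →* ℂˣ` be a character (of the *group* `Γ₀(N)`, not a Dirichlet character) which is
unitary and trivial on the stabiliser of `∞` (the upper triangular matrices `± T ^ n`).  For even
`k ≥ 4` we define

`eisChar χ k z = 1/2 * ∑_{γ ∈ Γ_∞ \ Γ₀(N)} χ(γ)⁻¹ (c z + d) ^ (-k)`

(as a sum over the bottom rows `(c, d)`) and prove: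

* `eisChar_mdifferentiable` : it is holomorphic on `ℍ`;
* `eisChar_slash`, `eisChar_smul` : `eisChar χ k (γ • z) = χ γ * (c z + d) ^ k * eisChar χ k z`
  for `γ ∈ Γ₀(N)`;
* `isBoundedAtImInfty_eisChar_slash` : all `SL(2, ℤ)`-translates are bounded at `i∞`;
* `tendsto_eisChar` : `eisChar χ k z → 1` as `im z → ∞`; `eisChar_ne_zero`.
-/

set_option autoImplicit false

noncomputable section

open UpperHalfPlane EisensteinSeries ModularForm Matrix CongruenceSubgroup Filter Topology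
open scoped MatrixGroups Manifold

namespace Fermat.Agent.H44

/-! ### bottom rows -/

/-- the bottom row of a matrix in `SL(2, ℤ)` -/
def botRow (γ : SL(2, ℤ)) : Fin 2 → ℤ := (γ : Matrix (Fin 2) (Fin 2) ℤ) 1

theorem botRow_apply (γ : SL(2, ℤ)) (i : Fin 2) :
    botRow γ i = (γ : Matrix (Fin 2) (Fin 2) ℤ) 1 i := rfl

theorem botRow_mul (γ A : SL(2, ℤ)) :
    botRow (γ * A) = botRow γ ᵥ* (A : Matrix (Fin 2) (Fin 2) ℤ) := by
  funext i
  simp only [botRow, Matrix.SpecialLinearGroup.coe_mul, Matrix.mul_apply, Matrix.vecMul,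
    dotProduct]

theorem botRow_one : botRow 1 = ![0, 1] := by
  funext i
  fin_cases i <;> simp [botRow]

theorem botRow_neg_one : botRow (-1) = ![0, -1] := by
  funext i
  fin_cases i <;> simp [botRow]

theorem botRow_eq_of_zero (γ : SL(2, ℤ)) (h : botRow γ 0 = 0) :
    botRow γ = ![0, 1] ∨ botRow γ = ![0, -1] := by
  have hdet := Matrix.SpecialLinearGroup.det_coe γ
  rw [Matrix.det_fin_two] at hdet
  have h10 : (γ : Matrix (Fin 2) (Fin 2) ℤ) 1 0 = 0 := h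
  rw [h10, mul_zero, sub_zero] at hdet
  rcases Int.eq_one_or_neg_one_of_mul_eq_one' hdet with ⟨-, h2⟩ | ⟨-, h2⟩
  · left
    funext i
    fin_cases i
    · exact h
    · exact h2
  · right
    funext i
    fin_cases i
    · exact h
    · exact h2

variable {N : ℕ}

/-! ### the weight function of a character -/

/-- `χ` is trivial on the stabiliser of `∞` in `Γ₀(N)` (the matrices `± T ^ n`) -/
def IsTrivialAtInfty (χ : ↥(Gamma0 N) →* ℂˣ) : Prop :=
  ∀ γ : ↥(Gamma0 N), botRow (γ : SL(2, ℤ)) 0 = 0 → χ γ = 1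

/-- `χ` has values of absolute value one -/
def IsUnitary (χ : ↥(Gamma0 N) →* ℂˣ) : Prop :=
  ∀ γ : ↥(Gamma0 N), ‖((χ γ : ℂˣ) : ℂ)‖ = 1

/-- characters of finite order are unitary -/
theorem isUnitary_of_pow_eq_one (χ : ↥(Gamma0 N) →* ℂˣ) (m : ℕ) (hm : m ≠ 0)
    (h : ∀ γ, χ γ ^ m = 1) : IsUnitary χ := by
  intro γ
  have h1 : ((χ γ : ℂˣ) : ℂ) ^ m = 1 := by
    rw [← Units.val_pow_eq_pow_val, h γ, Units.val_one]
  exact Complex.norm_eq_one_of_pow_eq_one h1 hm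

open Classical in
/-- the weight function of `χ`: the value `χ(γ)⁻¹` at the bottom row of `γ ∈ Γ₀(N)`, and `0` at
vectors which are not bottom rows of elements of `Γ₀(N)` -/
def rowWeight (χ : ↥(Gamma0 N) →* ℂˣ) (v : Fin 2 → ℤ) : ℂ :=
  if h : ∃ γ : ↥(Gamma0 N), botRow (γ : SL(2, ℤ)) = v then (((χ h.choose)⁻¹ : ℂˣ) : ℂ) else 0

variable {χ : ↥(Gamma0 N) →* ℂˣ}

theorem rowWeight_botRow (hχ : IsTrivialAtInfty χ) (γ : ↥(Gamma0 N)) :
    rowWeight χ (botRow (γ : SL(2, ℤ))) = (((χ γ)⁻¹ : ℂˣ) : ℂ) := by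
  have hex : ∃ γ' : ↥(Gamma0 N), botRow (γ' : SL(2, ℤ)) = botRow (γ : SL(2, ℤ)) := ⟨γ, rfl⟩
  unfold rowWeight
  rw [dif_pos hex]
  have hsp := hex.choose_spec
  set γ' := hex.choose
  have h1 : botRow ((γ' * γ⁻¹ : ↥(Gamma0 N)) : SL(2, ℤ)) = ![0, 1] := by
    rw [Subgroup.coe_mul, botRow_mul, hsp, ← botRow_mul, Subgroup.coe_inv, mul_inv_cancel,
      botRow_one]
  have h2 : χ (γ' * γ⁻¹) = 1 := hχ _ (by rw [h1]; rfl)
  rw [map_mul, map_inv, mul_inv_eq_one] at h2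
  rw [h2]

theorem rowWeight_of_not_exists
    {v : Fin 2 → ℤ} (h : ¬ ∃ γ : ↥(Gamma0 N), botRow (γ : SL(2, ℤ)) = v) :
    rowWeight χ v = 0 := by
  unfold rowWeight
  rw [dif_neg h]

theorem rowWeight_vecMul (hχ : IsTrivialAtInfty χ) (A : ↥(Gamma0 N)) (v : Fin 2 → ℤ) :
    rowWeight χ (v ᵥ* ((A : SL(2, ℤ)) : Matrix (Fin 2) (Fin 2) ℤ)) =
      rowWeight χ v * (((χ A)⁻¹ : ℂˣ) : ℂ) := by
  by_cases h : ∃ γ : ↥(Gamma0 N), botRow (γ : SL(2, ℤ)) = v
  · obtain ⟨γ, rfl⟩ := h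
    rw [← botRow_mul, ← Subgroup.coe_mul, rowWeight_botRow hχ, rowWeight_botRow hχ, map_mul,
      _root_.mul_inv_rev, Units.val_mul, mul_comm]
  · rw [rowWeight_of_not_exists h, zero_mul]
    apply rowWeight_of_not_exists
    rintro ⟨γ, hγ⟩
    apply h
    refine ⟨γ * A⁻¹, ?_⟩
    rw [Subgroup.coe_mul, botRow_mul, hγ, Subgroup.coe_inv]
    exact vecMul_inv_vecMul _ v

theorem norm_rowWeight_le (hu : IsUnitary χ) (v : Fin 2 → ℤ) : ‖rowWeight χ v‖ ≤ 1 := by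
  unfold rowWeight
  split_ifs with h
  · rw [Units.val_inv_eq_inv_val, norm_inv, hu, inv_one]
  · simp

theorem rowWeight_eq_zero_of_zero (v : Fin 2 → ℤ) (hv : v 0 = 0) (h1 : v ≠ ![0, 1])
    (h2 : v ≠ ![0, -1]) : rowWeight χ v = 0 := by
  apply rowWeight_of_not_exists
  rintro ⟨γ, rfl⟩
  rcases botRow_eq_of_zero _ hv with h | h
  · exact h1 h
  · exact h2 h

theorem rowWeight_zero_one (hχ : IsTrivialAtInfty χ) : rowWeight χ ![0, 1] = 1 := by
  have h := rowWeight_botRow hχ (1 : ↥(Gamma0 N))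
  rw [Subgroup.coe_one, botRow_one, map_one, inv_one, Units.val_one] at h
  exact h

theorem neg_one_mem_Gamma0 (N : ℕ) : (-1 : SL(2, ℤ)) ∈ Gamma0 N := by
  rw [Gamma0_mem]
  simp

theorem rowWeight_zero_neg_one (hχ : IsTrivialAtInfty χ) : rowWeight χ ![0, -1] = 1 := by
  have h := rowWeight_botRow hχ (⟨-1, neg_one_mem_Gamma0 N⟩ : ↥(Gamma0 N))
  have h1 : χ ⟨-1, neg_one_mem_Gamma0 N⟩ = 1 := hχ _ (by
    show botRow (-1) 0 = 0
    rw [botRow_neg_one]
    rfl)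
  rw [h1, inv_one, Units.val_one] at h
  rw [← botRow_neg_one]
  exact h

/-! ### the Eisenstein series -/

/-- the Eisenstein series of weight `k` attached to a character `χ` of `Γ₀(N)` -/
def eisChar (χ : ↥(Gamma0 N) →* ℂˣ) (k : ℤ) (z : ℍ) : ℂ := (1 / 2 : ℂ) * wEis (rowWeight χ) k z

theorem eisChar_eq (χ : ↥(Gamma0 N) →* ℂˣ) (k : ℤ) :
    eisChar χ k = (1 / 2 : ℂ) • wEis (rowWeight χ) k := rfl

variable {k : ℤ}

/-- the Eisenstein series with character is holomorphic -/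
theorem eisChar_mdifferentiable (hu : IsUnitary χ) (hk : 3 ≤ k) : MDiff (eisChar χ k) := by
  rw [eisChar_eq]
  exact (wEis_mdifferentiable (norm_rowWeight_le hu) hk).const_smul _

theorem wEis_mul_const (w : (Fin 2 → ℤ) → ℂ) (c : ℂ) (k : ℤ) :
    wEis (fun v => w v * c) k = c • wEis w k := by
  funext z
  simp only [wEis, Pi.smul_apply, smul_eq_mul]
  rw [← tsum_mul_left]
  refine tsum_congr fun v => ?_
  ring

/-- transformation law under `Γ₀(N)` (slash form) -/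
theorem eisChar_slash (hχ : IsTrivialAtInfty χ) (A : ↥(Gamma0 N)) :
    eisChar χ k ∣[k] (A : SL(2, ℤ)) = ((χ A : ℂˣ) : ℂ) • eisChar χ k := by
  rw [eisChar_eq, SL_smul_slash, wEis_slash]
  have h : (fun v : Fin 2 → ℤ =>
      rowWeight χ (v ᵥ* (((A : SL(2, ℤ))⁻¹ : SL(2, ℤ)) : Matrix (Fin 2) (Fin 2) ℤ))) =
      fun v => rowWeight χ v * ((χ A : ℂˣ) : ℂ) := by
    funext v
    have := rowWeight_vecMul hχ A⁻¹ v
    rw [Subgroup.coe_inv, map_inv, inv_inv] at this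
    exact this
  rw [h, wEis_mul_const, smul_comm]

/-- transformation law under `Γ₀(N)` (pointwise form) -/
theorem eisChar_smul (hχ : IsTrivialAtInfty χ) (A : ↥(Gamma0 N)) (z : ℍ) :
    eisChar χ k ((A : SL(2, ℤ)) • z) =
      ((χ A : ℂˣ) : ℂ) * denom (A : SL(2, ℤ)) z ^ k * eisChar χ k z := by
  have h := congrFun (eisChar_slash (k := k) hχ A) z
  rw [SL_slash_apply, Pi.smul_apply, smul_eq_mul] at h
  have hd : denom (A : SL(2, ℤ)) z ≠ 0 := denom_ne_zero _ z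
  rw [_root_.zpow_neg, mul_inv_eq_iff_eq_mul₀ (zpow_ne_zero _ hd)] at h
  rw [h]
  ring

/-- all `SL(2, ℤ)`-translates of the Eisenstein series with character are bounded at `i∞` -/
theorem isBoundedAtImInfty_eisChar_slash (hu : IsUnitary χ) (hk : 3 ≤ k) (A : SL(2, ℤ)) :
    IsBoundedAtImInfty (eisChar χ k ∣[k] A) := by
  rw [eisChar_eq, SL_smul_slash]
  exact (isBoundedAtImInfty_wEis_slash (norm_rowWeight_le hu) hk A).const_smul_left _

/-- explicit rate of convergence to `1` at `i∞` -/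
theorem norm_eisChar_sub_one_le (hχ : IsTrivialAtInfty χ) (hu : IsUnitary χ) (hk : 4 ≤ k)
    (hk2 : Even k) (z : ℍ) :
    ‖eisChar χ k z - 1‖ ≤ eisMajorant (k - 1) z / z.im := by
  have h := norm_wEis_sub_le (norm_rowWeight_le hu) hk hk2
    (fun v hv h1 h2 => rowWeight_eq_zero_of_zero v hv h1 h2) z
  rw [rowWeight_zero_one hχ, rowWeight_zero_neg_one hχ] at h
  have e : eisChar χ k z - 1 = (1 / 2 : ℂ) * (wEis (rowWeight χ) k z - (1 + 1)) := by
    unfold eisChar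
    ring
  rw [e, norm_mul]
  have h2 : ‖(1 / 2 : ℂ)‖ ≤ 1 := by
    rw [norm_div, norm_one, Complex.norm_ofNat]
    norm_num
  calc ‖(1 / 2 : ℂ)‖ * ‖wEis (rowWeight χ) k z - (1 + 1)‖
      ≤ 1 * ‖wEis (rowWeight χ) k z - (1 + 1)‖ := by gcongr
    _ = ‖wEis (rowWeight χ) k z - (1 + 1)‖ := one_mul _
    _ ≤ _ := h

/-- the Eisenstein series with character tends to `1` at `i∞` -/
theorem tendsto_eisChar (hχ : IsTrivialAtInfty χ) (hu : IsUnitary χ) (hk : 4 ≤ k)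
    (hk2 : Even k) : Tendsto (eisChar χ k) atImInfty (𝓝 1) := by
  rw [tendsto_iff_norm_sub_tendsto_zero]
  set C : ℝ := ∑' x : Fin 2 → ℤ, r ⟨⟨1, 2⟩, Nat.ofNat_pos⟩ ^ (-(k - 1)) * ‖x‖ ^ (-(k - 1))
  have hC : Tendsto (fun z : ℍ => C / z.im) atImInfty (𝓝 0) :=
    (tendsto_const_nhds.div_atTop tendsto_id).comp tendsto_comap
  refine squeeze_zero' (Eventually.of_forall fun z => norm_nonneg _) ?_ hC
  rw [Filter.Eventually, atImInfty_mem]
  refine ⟨2, fun z hz => ?_⟩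
  refine (norm_eisChar_sub_one_le hχ hu hk hk2 z).trans ?_
  have := eisMajorant_le (k := k - 1) (by omega) hz
  gcongr

/-- the Eisenstein series with character is not identically zero -/
theorem eisChar_ne_zero (hχ : IsTrivialAtInfty χ) (hu : IsUnitary χ) (hk : 4 ≤ k)
    (hk2 : Even k) : eisChar χ k ≠ 0 := by
  intro h
  have h1 := tendsto_eisChar hχ hu hk hk2
  rw [h] at h1
  have h2 : Tendsto (0 : ℍ → ℂ) atImInfty (𝓝 0) := tendsto_const_nhds
  exact zero_ne_one (tendsto_nhds_unique h2 h1)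

end Fermat.Agent.H44
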