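import Mathlib
import Fermat.Agent.H44.EsA.EisChar

/-!
# Powers of Eisenstein series with character are modular forms on `Γ₀(N)`

Seat `helper44` (project P-ES, block ES-A-EIS).

If `χ ^ m = 1` then `eisChar χ k ^ m` is a modular form of weight `m * k` on `Γ₀(N)` (with trivial
character), which tends to `1` at `i∞`.
-/

set_option autoImplicit false

noncomputable section

open UpperHalfPlane EisensteinSeries ModularForm Matrix CongruenceSubgroup Filter Topology
open scoped MatrixGroups Manifold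

namespace Fermat.Agent.H44

theorem pow_slash_SL2 (f : ℍ → ℂ) (k : ℤ) (m : ℕ) (A : SL(2, ℤ)) :
    (f ^ m) ∣[(m : ℤ) * k] A = (f ∣[k] A) ^ m := by
  ext z
  simp only [SL_slash_apply, Pi.pow_apply]
  rw [mul_pow, ← zpow_natCast (denom A z ^ (-k)) m, ← _root_.zpow_mul]
  congr 2
  ring

theorem isBoundedAtImInfty_pow {f : ℍ → ℂ} (hf : IsBoundedAtImInfty f) (m : ℕ) :
    IsBoundedAtImInfty (f ^ m) := by
  induction m with
  | zero =>
    rw [pow_zero]
    exact Filter.const_boundedAtFilter _ (1 : ℂ)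
  | succ m ih =>
    rw [pow_succ]
    exact ih.mul hf

variable {N : ℕ} [NeZero N] {χ : ↥(Gamma0 N) →* ℂˣ} {k : ℤ}

/-- the `m`-th power of the Eisenstein series with character `χ`, `χ ^ m = 1`, as a modular form
of weight `m * k` on `Γ₀(N)` -/
def eisCharPow (hχ : IsTrivialAtInfty χ) (hu : IsUnitary χ) (hk : 3 ≤ k) (m : ℕ)
    (hm : ∀ γ, χ γ ^ m = 1) : ModularForm (Gamma0 N) ((m : ℤ) * k) where
  toFun := eisChar χ k ^ m
  slash_action_eq' A hA := by
    obtain ⟨A, (hA : A ∈ Gamma0 N), rfl⟩ := hA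
    change (eisChar χ k ^ m) ∣[(m : ℤ) * k] A = eisChar χ k ^ m
    rw [pow_slash_SL2, eisChar_slash hχ ⟨A, hA⟩]
    ext z
    simp only [Pi.pow_apply, Pi.smul_apply, smul_eq_mul, mul_pow]
    rw [← Units.val_pow_eq_pow_val, hm, Units.val_one, one_mul]
  holo' := by
    show MDiff (eisChar χ k ^ m)
    exact (eisChar_mdifferentiable hu hk).pow m
  bdd_at_cusps' {c} hc := by
    rw [Subgroup.IsArithmetic.isCusp_iff_isCusp_SL2Z] at hc
    rw [OnePoint.isBoundedAt_iff_forall_SL2Z hc]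
    intro γ _
    show IsBoundedAtImInfty ((eisChar χ k ^ m) ∣[(m : ℤ) * k] γ)
    rw [pow_slash_SL2]
    exact isBoundedAtImInfty_pow (isBoundedAtImInfty_eisChar_slash hu hk γ) m

theorem eisCharPow_apply (hχ : IsTrivialAtInfty χ) (hu : IsUnitary χ) (hk : 3 ≤ k) (m : ℕ)
    (hm : ∀ γ, χ γ ^ m = 1) (z : ℍ) :
    eisCharPow hχ hu hk m hm z = eisChar χ k z ^ m := rfl

end Fermat.Agent.H44
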